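import Fermat.Agent.S58.Iface
import Fermat.Agent.EL.X23All
import Fermat.Agent.EL.Lift
import Fermat.Agent.EL.NodeOrd
import Fermat.Agent.EL.Order

/-!
# S58 / EAB : the two exports of the elliptic curve side
-/

set_option autoImplicit false
set_option linter.style.haveILetI false

namespace Fermat.Agent.S58

open WeierstrassCurve IsLocalRing Fermat.Agent.EL
open scoped WeierstrassCurve.Affine

theorem frobAll : FrobAll := fun W _ hℓ hgood _ hn _ hA _ hσ x =>
  frobenius_smul_eq_all W hℓ hgood hn hA hσ x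

lemma auxPrime_eq (q : ℕ) : auxPrime q = 2 ∨ auxPrime q = 3 := by
  unfold auxPrime
  split_ifs
  · exact Or.inr rfl
  · exact Or.inl rfl

lemma not_dvd_auxPrime_pow {q : ℕ} (hq : q.Prime) (n : ℕ) : ¬ q ∣ auxPrime q ^ n := by
  intro h
  have h1 := hq.dvd_of_dvd_pow h
  unfold auxPrime at h1
  split_ifs at h1 with h2
  · subst h2; omega
  · exact h2 ((Nat.prime_dvd_prime_iff_eq hq Nat.prime_two).1 h1)

/-- a point of exact order `λ^n` with nonsingular reduction -/
theorem exists_order_redTo (W : WeierstrassCurve ℤ) (hΔ : W.Δ ≠ 0) {q : ℕ} (hq : q.Prime)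
    (hss : ¬ ((q : ℤ) ∣ W.Δ ∧ (q : ℤ) ∣ W.c₄)) {A : ValuationSubring Qb} (hA : A.LiesOverPrime q)
    [DecidableEq (ResidueField A)] (n : ℕ) :
    ∃ (T : (gen (modelA W A)).toAffine.Point) (Pb : (spe (modelA W A)).toAffine.Point),
      RedTo (modelA W A) T Pb ∧ addOrderOf T = auxPrime q ^ n := by
  classical
  have hΔK : (gen (modelA W A)).Δ ≠ 0 := by
    rw [gen_modelA, WeierstrassCurve.map_Δ]
    simpa using hΔ
  have hlp : (auxPrime q).Prime := by
    rcases auxPrime_eq q with h | h <;> rw [h]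
    · exact Nat.prime_two
    · exact Nat.prime_three
  by_cases hgood : (q : ℤ) ∣ W.Δ
  · -- multiplicative reduction
    have hc4 : ¬ (q : ℤ) ∣ W.c₄ := fun h => hss ⟨hgood, h⟩
    haveI : IsAlgClosed (ResidueField A) := isAlgClosed_residueField
    haveI := charP_residueField hq hA
    have h1 : (spe (modelA W A)).Δ = 0 := by
      rw [spe_modelA, WeierstrassCurve.map_Δ, eq_intCast]
      exact (CharP.intCast_eq_zero_iff (ResidueField A) q _).2 hgood
    have h2 : (spe (modelA W A)).c₄ ≠ 0 := by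
      rw [spe_modelA, WeierstrassCurve.map_c₄, eq_intCast]
      exact fun h => hc4 ((CharP.intCast_eq_zero_iff (ResidueField A) q _).1 h)
    obtain ⟨Pb, hPb⟩ := exists_addOrderOf_eq (spe (modelA W A)) h1 h2
      (natCast_residue_ne_zero hq hA (not_dvd_auxPrime_pow hq n))
    have hl : (auxPrime q : ResidueField A) ≠ 0 :=
      natCast_residue_ne_zero hq hA (by simpa using not_dvd_auxPrime_pow hq 1)
    obtain ⟨T, hT, hTo⟩ := exists_torsion_lift (modelA W A) hΔK (auxPrime_eq q) hl n hPb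
    exact ⟨T, Pb, hT, hTo⟩
  · obtain ⟨T, hT⟩ := exists_addOrderOf_pow (gen (modelA W A)) hΔK hlp n
    obtain ⟨Pb, hPb⟩ := exists_redTo_of_isUnit_Δ (isUnit_Δ_modelA hq hgood hA) T
    exact ⟨T, Pb, hPb, hT⟩

theorem inertiaFix : InertiaFix := by
  classical
  intro W hΔ q hq hss A hA σ hσ n
  obtain ⟨g, hg, rfl⟩ := hσ
  have hg' : ∀ z : ResidueField A, g • z = z := fun z => by
    have := RingEquiv.congr_fun (MonoidHom.mem_ker.1 hg) z
    exact this
  obtain ⟨T, hTo, hTfix⟩ := exists_fixed_of_redTo' (W := W) hq hA (not_dvd_auxPrime_pow hq n) g hg'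
    (gen_modelA' W A) (map_decK' W g) (exists_order_redTo W hΔ hq hss hA n)
  let T' : ((toQ W)⁄Qb).Point := T
  have hmem : T' ∈ Submodule.torsionBy ℤ ((toQ W)⁄Qb).Point ((auxPrime q ^ n : ℕ) : ℤ) := by
    rw [Submodule.mem_torsionBy_iff, natCast_zsmul]
    have := addOrderOf_nsmul_eq_zero T
    rw [hTo] at this
    exact this
  refine ⟨⟨T', hmem⟩, ?_, ?_⟩
  · have h1 := addOrderOf_injective
      (Submodule.torsionBy ℤ ((toQ W)⁄Qb).Point ((auxPrime q ^ n : ℕ) : ℤ)).subtype.toAddMonoidHom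
      Subtype.val_injective ⟨T', hmem⟩
    rw [← h1]
    exact hTo
  · apply Subtype.ext
    change (g : Qb ≃ₐ[ℚ] Qb) • T' = T'
    rw [smul_eq_mapPt]
    exact hTfix

end Fermat.Agent.S58
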