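import Fermat.Agent.S58.Iface
import Fermat.Agent.GR.H.EigenCharA
import Fermat.Agent.GR.H.PadicLiftA

/-!
# S58 / Iota : the coefficient bookkeeping of S35 / S36
-/

set_option autoImplicit false

namespace Fermat.Agent.S58

open Polynomial

/-- an abstract version of STEPS 2, 3: a subring of `ℂ`, finite over `ℤ`, embeds in a complete DVR of
residue characteristic `lam`. -/
theorem Iota_exists_embedding (TT : Subring ℂ) [Module.Finite ℤ TT] (lam : ℕ) [Fact lam.Prime] :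
    ∃ (O' : Type) (_ : CommRing O') (_ : IsDomain O') (_ : IsDiscreteValuationRing O')
      (_ : IsAdicComplete (IsLocalRing.maximalIdeal O') O')
      (_ : Finite (IsLocalRing.ResidueField O')) (_ : CharZero O'),
      (lam : O') ∈ IsLocalRing.maximalIdeal O' ∧
      ∃ iota : TT →+* O', Function.Injective iota := by
  have hlam : lam.Prime := Fact.out
  have hint : Algebra.IsIntegral ℤ TT := inferInstance
  have hmax : (Ideal.span {(lam : ℤ)}).IsMaximal :=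
    PrincipalIdealRing.isMaximal_of_irreducible (Nat.prime_iff_prime_int.mp hlam).irreducible
  have hinjZ : Function.Injective (algebraMap ℤ TT) := by
    intro a b hab
    have h1 := congrArg (fun x : TT => (x : ℂ)) hab
    simpa using h1
  obtain ⟨mm, hmm, hcomap⟩ := Ideal.exists_ideal_over_maximal_of_isIntegral (S := TT)
    (Ideal.span {(lam : ℤ)}) (by
      rw [(RingHom.injective_iff_ker_eq_bot _).mp hinjZ]
      exact bot_le)
  letI : Field (TT ⧸ mm) := Ideal.Quotient.field mm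
  have hlam0 : ((lam : ℕ) : TT ⧸ mm) = 0 := by
    have h1 : (lam : ℤ) ∈ mm.comap (algebraMap ℤ TT) := by
      rw [hcomap]
      exact Ideal.mem_span_singleton_self _
    have h2 : Ideal.Quotient.mk mm (algebraMap ℤ TT (lam : ℤ)) = 0 :=
      Ideal.Quotient.eq_zero_iff_mem.mpr h1
    simpa using h2
  have hchar : CharP (TT ⧸ mm) lam := (CharP.charP_iff_prime_eq_zero hlam).mpr hlam0
  have hchar' : CharP (AlgebraicClosure (TT ⧸ mm)) lam :=
    charP_of_injective_algebraMap (algebraMap (TT ⧸ mm) (AlgebraicClosure (TT ⧸ mm))).injective lam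
  have htf : IsAddTorsionFree TT := inferInstance
  obtain ⟨O', i1, i2, i3, i4, i5, i6, hO', χ, j, hj⟩ :=
    Fermat.Agent.GR.H.exists_padic_lift TT lam (AlgebraicClosure (TT ⧸ mm))
      ((algebraMap (TT ⧸ mm) (AlgebraicClosure (TT ⧸ mm))).comp (Ideal.Quotient.mk mm))
  refine ⟨O', i1, i2, i3, i4, i5, i6, hO', χ, ?_⟩
  rw [RingHom.injective_iff_ker_eq_bot]
  apply Ideal.eq_bot_of_comap_eq_bot (R := ℤ)
  rw [eq_bot_iff]
  intro n hn
  rw [Ideal.mem_comap, RingHom.mem_ker] at hn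
  have h1 : ((n : ℤ) : O') = 0 := by simpa using hn
  rw [Ideal.mem_bot]
  exact_mod_cast h1

/-- STEPS 1, 2, 3. -/
theorem Iota_exists_data {M : ℕ} [NeZero M] {g : CuspForm (CongruenceSubgroup.Gamma0 M) 2}
    (hg : g.IsNewform) (lam : ℕ) [Fact lam.Prime] (S : Finset ℕ) :
    ∃ chig : CuspForm.heckeAlgebra M 2 (↑S : Set ℕ) →+* ℂ,
      (∀ (ℓ : ℕ) (hℓ : ℓ.Prime) (hℓM : ¬ ℓ ∣ M) (hℓS : ℓ ∉ (↑S : Set ℕ)),
        chig (CuspForm.heckeAlgebra.T hℓ hℓM hℓS) = ModularFormClass.qCoeff g ℓ) ∧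
      ∃ (O' : Type) (_ : CommRing O') (_ : IsDomain O') (_ : IsDiscreteValuationRing O')
        (_ : IsAdicComplete (IsLocalRing.maximalIdeal O') O')
        (_ : Finite (IsLocalRing.ResidueField O')) (_ : CharZero O'),
        (lam : O') ∈ IsLocalRing.maximalIdeal O' ∧
        ∃ iota : chig.range →+* O', Function.Injective iota := by
  obtain ⟨χ, -, hχ⟩ := Fermat.Agent.GR.H.exists_eigenchar hg.1 (↑S : Set ℕ)
  refine ⟨(algebraMap (integralClosure ℤ ℂ) ℂ).comp χ, fun ℓ hℓ hℓM hℓS => hχ ℓ hℓ hℓM hℓS, ?_⟩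
  have hfin : Module.Finite ℤ (CuspForm.heckeAlgebra M 2 (↑S : Set ℕ)) :=
    Fermat.Agent.S22.result M 2 (↑S : Set ℕ)
  have hfin' : Module.Finite ℤ ((algebraMap (integralClosure ℤ ℂ) ℂ).comp χ).range :=
    Module.Finite.of_surjective
      ((algebraMap (integralClosure ℤ ℂ) ℂ).comp χ).rangeRestrict.toIntAlgHom.toLinearMap
      ((algebraMap (integralClosure ℤ ℂ) ℂ).comp χ).rangeRestrict_surjective
  exact Iota_exists_embedding _ lam

/-- STEP 4, the Frobenius clause. -/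
theorem Iota_frobClause {M : ℕ} [NeZero M] {g : CuspForm (CongruenceSubgroup.Gamma0 M) 2}
    (S : Finset ℕ) (O' : Type) [CommRing O']
    (chig : CuspForm.heckeAlgebra M 2 (↑S : Set ℕ) →+* ℂ)
    (hchig : ∀ (ℓ : ℕ) (hℓ : ℓ.Prime) (hℓM : ¬ ℓ ∣ M) (hℓS : ℓ ∉ (↑S : Set ℕ)),
      chig (CuspForm.heckeAlgebra.T hℓ hℓM hℓS) = ModularFormClass.qCoeff g ℓ)
    (iota : chig.range →+* O') (hiota : Function.Injective iota)
    (O'' : Type) [CommRing O''] [IsLocalRing O''] [Algebra O' O'']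
    (hinj : Function.Injective (algebraMap O' O'')) (ρ : GaloisRepAdic O'')
    (h : ∀ (ℓ : ℕ) (hℓ : ℓ.Prime) (hℓM : ¬ ℓ ∣ M) (hℓS : ℓ ∉ (↑S : Set ℕ)),
      ∀ A : ValuationSubring (AlgebraicClosure ℚ), A.LiesOverPrime ℓ →
        ∀ σ : AlgebraicClosure ℚ ≃ₐ[ℚ] AlgebraicClosure ℚ, A.IsFrobeniusAt σ ℓ →
          LinearMap.charpoly (ρ.ρ σ) =
            X ^ 2 - C (algebraMap O' O'' ((iota.comp chig.rangeRestrict)
              (CuspForm.heckeAlgebra.T hℓ hℓM hℓS))) * X + C ((ℓ : O''))) :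
    FrobClause g S ρ := by
  intro ℓ hℓ hℓM hℓS A hA σ hσ
  have hℓS' : ℓ ∉ (↑S : Set ℕ) := fun hm => hℓS (Finset.mem_coe.mp hm)
  refine ⟨_, h ℓ hℓ hℓM hℓS' A hA σ hσ, fun a => ?_⟩
  rw [← map_intCast (algebraMap O' O'') a, hinj.eq_iff, RingHom.comp_apply,
    ← map_intCast iota a, hiota.eq_iff, ← hchig ℓ hℓ hℓM hℓS', Subtype.ext_iff]
  rfl

theorem rep35_of (h35 : S35P) {M : ℕ} [NeZero M] {g : CuspForm (CongruenceSubgroup.Gamma0 M) 2}
    (hg : g.IsNewform) (lam : ℕ) [Fact lam.Prime] (S : Finset ℕ) (hlamS : lam ∈ S)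
    (hMS : ∀ q : ℕ, q.Prime → q ∣ M → q ∈ S) : Rep35 g lam S := by
  obtain ⟨chig, hchig, O', i1, i2, i3, i4, i5, i6, hO', iota, hiota⟩ := Iota_exists_data hg lam S
  obtain ⟨O'', j1, j2, j3, j4, j5, j6, j7, j8, j9, hinj, ρ, hρ1, hρ2⟩ :=
    h35 hg lam S O' hO' chig hchig iota hlamS hMS
  refine ⟨O'', j1, j2, j3, j6, ?_, ρ, ?_, hρ2⟩
  · have h1 : algebraMap O' O'' (lam : O') ∈ IsLocalRing.maximalIdeal O'' :=
      map_nonunit (algebraMap O' O'') _ hO'
    simpa using h1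
  · exact Iota_frobClause S O' chig hchig iota hiota O'' hinj ρ hρ1

theorem rep36_of (h36 : S36P) {M : ℕ} [NeZero M] {g : CuspForm (CongruenceSubgroup.Gamma0 M) 2}
    (hg : g.IsNewform) (lam : ℕ) [Fact lam.Prime] (S : Finset ℕ) (hlamS : lam ∈ S)
    (hMS : ∀ q : ℕ, q.Prime → q ∣ M → q ∈ S) : Rep36 g lam S := by
  obtain ⟨chig, hchig, O', i1, i2, i3, i4, i5, i6, hO', iota, hiota⟩ := Iota_exists_data hg lam S
  obtain ⟨O'', j1, j2, j3, j4, j5, j6, j7, j8, j9, hinj, ρ, hρ1, hρ2⟩ :=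
    h36 hg lam S O' hO' chig hchig iota hlamS hMS
  refine ⟨O'', j1, j2, j3, j6, ?_, ρ, ?_, hρ2⟩
  · have h1 : algebraMap O' O'' (lam : O') ∈ IsLocalRing.maximalIdeal O'' :=
      map_nonunit (algebraMap O' O'') _ hO'
    simpa using h1
  · exact Iota_frobClause S O' chig hchig iota hiota O'' hinj ρ hρ1

end Fermat.Agent.S58
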