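import Fermat.Agent.S58.Iface
import Fermat.Agent.GS.AL.Eigen
import Fermat.Agent.GR.H.EigenCharA

/-!
# S58 / Stab : raising the level of an eigensystem; the trivial bound for `a_q`
-/

set_option autoImplicit false

namespace Fermat.Agent.S58

open ModularFormClass

theorem Stab_G0_le {M N' : ℕ} (hMN : M ∣ N') :
    (CongruenceSubgroup.Gamma0 N' : Subgroup (GL (Fin 2) ℝ)) ≤
      (CongruenceSubgroup.Gamma0 M : Subgroup (GL (Fin 2) ℝ)) := by
  apply Subgroup.map_mono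
  intro γ hγ
  rw [CongruenceSubgroup.Gamma0_mem, ZMod.intCast_zmod_eq_zero_iff_dvd] at hγ ⊢
  exact dvd_trans (by exact_mod_cast hMN) hγ

/-- an eigensystem of level `M` occurs at every multiple `N'` of `M`
(`GS.AL.exists_eigenform_of_good_eigenvector` applied to `g` seen at level `N'`). -/
theorem exists_eigenform_of_dvd {M N' : ℕ} [NeZero M] [NeZero N'] (hMN : M ∣ N')
    {g : CuspForm (CongruenceSubgroup.Gamma0 M) 2} (hg : g.IsNormalizedEigenform) :
    ∃ f : CuspForm (CongruenceSubgroup.Gamma0 N') 2, f.IsNormalizedEigenform ∧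
      ∀ ℓ : ℕ, ℓ.Prime → ¬ ℓ ∣ N' → qCoeff f ℓ = qCoeff g ℓ := by
  obtain ⟨h, hh⟩ : ∃ h : CuspForm (CongruenceSubgroup.Gamma0 N') 2,
      (⇑h : UpperHalfPlane → ℂ) = ⇑g :=
    ⟨{ toFun := g
       slash_action_eq' := fun γ hγ => g.slash_action_eq' γ (Stab_G0_le hMN hγ)
       holo' := g.holo'
       zero_at_cusps' := fun hc => g.zero_at_cusps' (hc.mono (Stab_G0_le hMN)) }, rfl⟩
  have hne : h ≠ 0 := by
    rintro rfl
    apply hg.ne_zero
    apply DFunLike.coe_injective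
    rw [← hh]
    rfl
  have hT : ∀ (ℓ : ℕ) (hℓ : ℓ.Prime) (hℓN : ¬ ℓ ∣ N'), ¬ ℓ ∣ 1 →
      CuspForm.heckeTLin 2 hℓ hℓN h = (fun ℓ => qCoeff g ℓ) ℓ • h := by
    intro ℓ hℓ hℓN _
    have hℓM : ¬ ℓ ∣ M := fun hd => hℓN (hd.trans hMN)
    apply DFunLike.coe_injective
    have h1 := congrArg (fun F : CuspForm (CongruenceSubgroup.Gamma0 M) 2 =>
      (⇑F : UpperHalfPlane → ℂ)) (GR.H.EigenCharA_heckeTLin hg hℓ hℓM)
    have h2 : (⇑(CuspForm.heckeTLin 2 hℓ hℓM g) : UpperHalfPlane → ℂ) =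
        qCoeff g ℓ • (⇑g : UpperHalfPlane → ℂ) := h1
    have h4 : (⇑(qCoeff g ℓ • h) : UpperHalfPlane → ℂ) =
        qCoeff g ℓ • (⇑h : UpperHalfPlane → ℂ) := rfl
    rw [CuspForm.coe_heckeTLin_apply] at h2 ⊢
    change _ = (⇑(qCoeff g ℓ • h) : UpperHalfPlane → ℂ)
    rw [h4, hh, h2]
  obtain ⟨f, hf, hfa⟩ :=
    GS.AL.exists_eigenform_of_good_eigenvector 1 (fun ℓ => qCoeff g ℓ) h hne hT
  exact ⟨f, hf, fun ℓ hℓ hℓN => hfa ℓ hℓ hℓN (fun hd => hℓ.one_lt.ne' (Nat.dvd_one.1 hd))⟩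

open Classical in
/-- a chosen `y` over `x`. -/
noncomputable def Stab_y0 {F : Type} [Field F] (W : WeierstrassCurve.Affine F) (x : F) : F :=
  if h : ∃ y, W.Equation x y then h.choose else 0

theorem Stab_y0_spec {F : Type} [Field F] (W : WeierstrassCurve.Affine F) {x y : F}
    (h : W.Equation x y) : W.Equation x (Stab_y0 W x) := by
  have h' : ∃ y, W.Equation x y := ⟨y, h⟩
  rw [Stab_y0, dif_pos h']
  exact h'.choose_spec

open Classical in
/-- the injection of the points into `Option (F × Bool)`. -/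
noncomputable def Stab_code {F : Type} [Field F] (W : WeierstrassCurve.Affine F) :
    W.Point → Option (F × Bool)
  | .zero => none
  | .some x y _ => some (x, decide (y = Stab_y0 W x))

theorem Stab_code_injective {F : Type} [Field F] (W : WeierstrassCurve.Affine F) :
    Function.Injective (Stab_code W) := by
  rintro (_ | ⟨x₁, y₁, h₁⟩) (_ | ⟨x₂, y₂, h₂⟩) h <;>
    simp only [Stab_code, Option.some.injEq, Prod.mk.injEq, reduceCtorEq] at h
  · rfl
  · obtain ⟨rfl, hb⟩ := h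
    have e1 := WeierstrassCurve.Affine.Y_eq_of_X_eq h₁.1 (Stab_y0_spec W h₁.1) rfl
    have e2 := WeierstrassCurve.Affine.Y_eq_of_X_eq h₂.1 (Stab_y0_spec W h₁.1) rfl
    have hy : y₁ = y₂ := by
      have hiff : y₁ = Stab_y0 W x₁ ↔ y₂ = Stab_y0 W x₁ := by
        simpa using hb
      by_cases c : y₁ = Stab_y0 W x₁
      · rw [c, hiff.1 c]
      · rw [e1.resolve_left c, e2.resolve_left (fun c2 => c (hiff.2 c2))]
    subst hy
    rfl

theorem Stab_card_le {q : ℕ} [Fact q.Prime] (W : WeierstrassCurve.Affine (ZMod q)) :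
    Nat.card W.Point ≤ 2 * q + 1 := by
  have h := Nat.card_le_card_of_injective _ (Stab_code_injective W)
  rw [Nat.card_eq_fintype_card (α := Option (ZMod q × Bool)), Fintype.card_option,
    Fintype.card_prod, ZMod.card, Fintype.card_bool] at h
  omega

/-- `1 ≤ #W(𝔽_q) ≤ 2 q + 1` -/
theorem apOfModel_ne (W : WeierstrassCurve ℤ) {q : ℕ} (hq : q.Prime) :
    W.apOfModel q ≠ (q : ℤ) + 1 ∧ W.apOfModel q ≠ -((q : ℤ) + 1) := by
  have : Fact q.Prime := ⟨hq⟩
  have h1 : Nat.card (W.reductionMod q).toAffine.Point ≤ 2 * q + 1 := Stab_card_le _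
  have h2 : 0 < Nat.card (W.reductionMod q).toAffine.Point :=
    Nat.card_pos_iff.2 ⟨⟨.zero⟩, inferInstance⟩
  rw [WeierstrassCurve.apOfModel, WeierstrassCurve.traceOfFrobenius, WeierstrassCurve.card,
    Nat.card_zmod]
  constructor <;> omega

end Fermat.Agent.S58
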