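import Fermat.Agent.S58.Adic
import Fermat.Agent.S58.Iota
import Fermat.Agent.S58.Stab
import Fermat.Agent.Lib.Frobenius

/-!
# S58 / Top : conductor-level matching from the interfaces
-/

set_option autoImplicit false
set_option linter.style.haveILetI false

namespace Fermat.Agent.S58

open Polynomial ModularFormClass

lemma auxPrime_prime (q : ℕ) : (auxPrime q).Prime := by
  unfold auxPrime
  split_ifs
  · exact Nat.prime_three
  · exact Nat.prime_two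

lemma auxPrime_ne (q : ℕ) : q ≠ auxPrime q := by
  unfold auxPrime
  split_ifs with h
  · omega
  · exact h

section core

variable {W : WeierstrassCurve ℤ} (hΔ : W.Δ ≠ 0) {N M : ℕ} (hN : N ≠ 0)
  {g : CuspForm (CongruenceSubgroup.Gamma0 M) 2}
  (hgW : ∀ ℓ : ℕ, ℓ.Prime → ¬ (ℓ : ℤ) ∣ W.Δ → ¬ ℓ ∣ N → qCoeff g ℓ = (W.apOfModel ℓ : ℂ))

/-- the set of primes outside of which everything is known -/
noncomputable def bigSet (W : WeierstrassCurve ℤ) (N M : ℕ) (S : Finset ℕ) : Finset ℕ :=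
  S ∪ (M.primeFactors ∪ (N.primeFactors ∪ W.Δ.natAbs.primeFactors))

include hΔ hN hgW in
lemma compat_of_frobClause (hM : M ≠ 0) (S : Finset ℕ) {O : Type} [CommRing O] [IsLocalRing O]
    (ρ : GaloisRepAdic O) (h : FrobClause g S ρ) : Compat W ρ (bigSet W N M S) := by
  intro ℓ hℓ hS A hA σ hσ
  simp only [bigSet, Finset.mem_union, not_or, Nat.mem_primeFactors, not_and, ne_eq] at hS
  obtain ⟨h1, h2, h3, h4⟩ := hS
  have hM' : ¬ ℓ ∣ M := fun hd => h2 hℓ hd hM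
  have hN' : ¬ ℓ ∣ N := fun hd => h3 hℓ hd hN
  have hΔ' : ¬ (ℓ : ℤ) ∣ W.Δ := fun hd =>
    h4 hℓ (Int.natCast_dvd.1 hd) (Int.natAbs_ne_zero.2 hΔ)
  obtain ⟨α, hα, hiff⟩ := h ℓ hℓ hM' h1 A hA σ hσ
  rw [hα, (hiff (W.apOfModel ℓ)).2 (hgW ℓ hℓ hΔ' hN')]

variable [NeZero M] (hg : g.IsNewform)

include hΔ hN hgW hg in
/-- (K3) -/
theorem qCoeff_eq_of_good (h35 : S35P) (hEA : FrobAll) {ℓ₀ : ℕ} (hℓ₀ : ℓ₀.Prime)
    (hgood : ¬ (ℓ₀ : ℤ) ∣ W.Δ) (hM : ¬ ℓ₀ ∣ M) : qCoeff g ℓ₀ = (W.apOfModel ℓ₀ : ℂ) := by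
  haveI : Fact (auxPrime ℓ₀).Prime := ⟨auxPrime_prime ℓ₀⟩
  set S : Finset ℕ := insert (auxPrime ℓ₀) M.primeFactors with hS
  obtain ⟨O, i1, i2, i3, i4, hlam, ρ, hF, -⟩ := rep35_of h35 hg (auxPrime ℓ₀) S
    (Finset.mem_insert_self _ _)
    (fun q hq hqM => Finset.mem_insert_of_mem (Nat.mem_primeFactors.2 ⟨hq, hqM, NeZero.ne M⟩))
  have hℓS : ℓ₀ ∉ S := by
    rw [hS, Finset.mem_insert, not_or]
    exact ⟨auxPrime_ne ℓ₀, fun h => hM (Nat.dvd_of_mem_primeFactors h)⟩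
  obtain ⟨A, σ, hA, hσ⟩ := Fermat.Agent.Lib.Frobenius.exists_isFrobeniusAt ℓ₀ hℓ₀
  obtain ⟨α, hα, hiff⟩ := hF ℓ₀ hℓ₀ hM hℓS A hA σ hσ
  exact (hiff _).1 (adic_frobenius W hΔ (auxPrime ℓ₀) hlam ρ _
    (compat_of_frobClause hΔ hN hgW (NeZero.ne M) S ρ hF) hEA hℓ₀ hgood (auxPrime_ne ℓ₀) hA hσ hα)

include hΔ hN hgW hg in
/-- (K1a) a good prime does not divide `M` exactly once -/
theorem sq_dvd_of_good (h35 : S35P) (hEA : FrobAll) {q : ℕ} (hq : q.Prime)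
    (hgood : ¬ (q : ℤ) ∣ W.Δ) (hM : q ∣ M) : q ^ 2 ∣ M := by
  by_contra hM2
  haveI : Fact (auxPrime q).Prime := ⟨auxPrime_prime q⟩
  set S : Finset ℕ := insert (auxPrime q) M.primeFactors with hS
  obtain ⟨O, i1, i2, i3, i4, hlam, ρ, hF, h2⟩ := rep35_of h35 hg (auxPrime q) S
    (Finset.mem_insert_self _ _)
    (fun q hq hqM => Finset.mem_insert_of_mem (Nat.mem_primeFactors.2 ⟨hq, hqM, NeZero.ne M⟩))
  obtain ⟨A, σ, hA, hσ⟩ := Fermat.Agent.Lib.Frobenius.exists_isFrobeniusAt q hq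
  have key : ∀ α β : O, LinearMap.charpoly (ρ.ρ σ) = X ^ 2 - C α * X + C β →
      α = ((W.apOfModel q : ℤ) : O) := fun α β hα =>
    adic_frobenius W hΔ (auxPrime q) hlam ρ _
      (compat_of_frobClause hΔ hN hgW (NeZero.ne M) S ρ hF) hEA hq hgood (auxPrime_ne q) hA hσ hα
  obtain ⟨hb1, hb2⟩ := apOfModel_ne W hq
  rcases h2 q hq (auxPrime_ne q) hM hM2 A hA σ hσ with h | h
  · have := key _ _ h
    apply hb1
    have h' : (((q : ℤ) + 1 : ℤ) : O) = ((W.apOfModel q : ℤ) : O) := by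
      push_cast
      exact this
    exact (Int.cast_injective h').symm
  · have := key (-((q : O) + 1)) (q : O) (by rw [h, C_neg, neg_mul, sub_neg_eq_add])
    apply hb2
    have h' : ((-((q : ℤ) + 1) : ℤ) : O) = ((W.apOfModel q : ℤ) : O) := by
      push_cast
      exact this
    exact (Int.cast_injective h').symm

include hΔ hN hgW hg in
/-- (K2) at a prime of good or multiplicative reduction, `q ^ 2` does not divide `M` exactly -/
theorem factorization_ne_two (h36 : S36P) (hEB : InertiaFix) {q : ℕ} (hq : q.Prime)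
    (hss : ¬ ((q : ℤ) ∣ W.Δ ∧ (q : ℤ) ∣ W.c₄)) : M.factorization q ≠ 2 := by
  intro hfac
  haveI : Fact (auxPrime q).Prime := ⟨auxPrime_prime q⟩
  set S : Finset ℕ := insert (auxPrime q) M.primeFactors with hS
  obtain ⟨O, i1, i2, i3, i4, hlam, ρ, hF, h2⟩ := rep36_of h36 hg (auxPrime q) S
    (Finset.mem_insert_self _ _)
    (fun q hq hqM => Finset.mem_insert_of_mem (Nat.mem_primeFactors.2 ⟨hq, hqM, NeZero.ne M⟩))
  apply h2 q hq (auxPrime_ne q) hfac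
  intro A hA σ hσ
  exact adic_unipotent W hΔ (auxPrime q) hlam ρ _
    (compat_of_frobClause hΔ hN hgW (NeZero.ne M) S ρ hF) hq (auxPrime_ne q) hA hσ
    (fun n => hEB W hΔ hq hss hA hσ n)

end core

/-- **S58** from the interfaces. -/
theorem S58_of (h35 : S35P) (h36 : S36P) (hEA : FrobAll) (hEB : InertiaFix)
    (W : WeierstrassCurve ℤ) (hss : W.IsSemistableModel) (N : ℕ)
    (hN : W.IsModularModelOfLevel N) (hbad : ∀ ℓ : ℕ, ℓ.Prime → (ℓ : ℤ) ∣ W.Δ → ℓ ∣ N)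
    (hN3 : ∀ q : ℕ, q.Prime → ¬ q ^ 3 ∣ N) :
    W.IsModularModelOfLevel W.conductorLevel := by
  classical
  have hN0 : N ≠ 0 := by
    rintro rfl
    exact hN3 2 Nat.prime_two (dvd_zero _)
  have hΔ : W.Δ ≠ 0 := by
    intro h0
    obtain ⟨ℓ, hℓN, hℓ⟩ := Nat.exists_infinite_primes (N + 1)
    have := Nat.le_of_dvd (Nat.pos_of_ne_zero hN0) (hbad ℓ hℓ (by rw [h0]; exact dvd_zero _))
    omega
  obtain ⟨f, hf, hfW⟩ := hN
  -- the minimal level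
  have hex : ∃ M : ℕ, M ∣ N ∧ CuspForm.GoodEigensystemOccursAt f M :=
    ⟨N, dvd_rfl, CuspForm.GoodEigensystemOccursAt.refl hf⟩
  obtain ⟨M, hMdef⟩ : ∃ M, M = Nat.find hex := ⟨_, rfl⟩
  have hspec := Nat.find_spec hex
  have hmin : ∀ M' < M, ¬ (M' ∣ N ∧ CuspForm.GoodEigensystemOccursAt f M') := by
    intro M' hM'
    rw [hMdef] at hM'
    exact Nat.find_min hex hM'
  rw [← hMdef] at hspec
  obtain ⟨hMN, g, hg, hgf⟩ := hspec
  have hM0 : M ≠ 0 := fun h => hN0 (by rw [h] at hMN; exact Nat.eq_zero_of_zero_dvd hMN)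
  haveI : NeZero M := ⟨hM0⟩
  have hnew : g.IsNewform := by
    refine ⟨hg, fun M' hM' hne hocc => ?_⟩
    obtain ⟨g', hg', hgg'⟩ := hocc
    have hlt : M' < M := lt_of_le_of_ne (Nat.le_of_dvd (Nat.pos_of_ne_zero hM0) hM') hne
    refine hmin M' hlt ⟨hM'.trans hMN, g', hg', fun ℓ hℓ hℓN => ?_⟩
    rw [hgg' ℓ hℓ (fun hd => hℓN (hd.trans hMN)), hgf ℓ hℓ hℓN]
  have hgW : ∀ ℓ : ℕ, ℓ.Prime → ¬ (ℓ : ℤ) ∣ W.Δ → ¬ ℓ ∣ N → qCoeff g ℓ = (W.apOfModel ℓ : ℂ) :=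
    fun ℓ hℓ hgood hℓN => by rw [hgf ℓ hℓ hℓN, hfW ℓ hℓ hgood hℓN]
  have hssq : ∀ q : ℕ, q.Prime → ¬ ((q : ℤ) ∣ W.Δ ∧ (q : ℤ) ∣ W.c₄) :=
    fun q hq h => hss q hq h.1 h.2
  -- `M` is squarefree
  have hsq : ∀ q : ℕ, q.Prime → ¬ q ^ 2 ∣ M := by
    intro q hq h2
    apply factorization_ne_two hΔ hN0 hgW hnew h36 hEB hq (hssq q hq)
    have h1 : 2 ≤ M.factorization q := (hq.pow_dvd_iff_le_factorization hM0).1 h2
    have h3 : ¬ 3 ≤ M.factorization q := fun h =>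
      hN3 q hq (((hq.pow_dvd_iff_le_factorization hM0).2 h).trans hMN)
    omega
  -- the primes dividing `M` are bad
  have hMbad : ∀ q : ℕ, q.Prime → q ∣ M → (q : ℤ) ∣ W.Δ := by
    intro q hq hqM
    by_contra hgood
    exact hsq q hq (sq_dvd_of_good hΔ hN0 hgW hnew h35 hEA hq hgood hqM)
  have hMc : M ∣ W.conductorLevel := by
    have hsqf : Squarefree M := by
      rw [Nat.squarefree_iff_prime_squarefree]
      intro q hq h
      exact hsq q hq (by rwa [pow_two])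
    rw [← Nat.prod_primeFactors_of_squarefree hsqf]
    refine Finset.prod_primes_dvd _ (fun q hq => (Nat.prime_of_mem_primeFactors hq).prime)
      (fun q hq => ?_)
    have hq' := Nat.prime_of_mem_primeFactors hq
    exact (W.prime_dvd_conductorLevel_iff hΔ hq').2 (hMbad q hq' (Nat.dvd_of_mem_primeFactors hq))
  obtain ⟨f', hf', hf'g⟩ := exists_eigenform_of_dvd hMc hg
  refine ⟨f', hf', fun ℓ hℓ hgood hℓc => ?_⟩
  rw [hf'g ℓ hℓ hℓc]
  exact qCoeff_eq_of_good hΔ hN0 hgW hnew h35 hEA hℓ hgood (fun hd => hgood (hMbad ℓ hℓ hd))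

end Fermat.Agent.S58
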