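import Fermat.Agent.S58.AdicKey
import Fermat.Agent.GR.H.Density
import Fermat.Agent.GR.G.Main

/-!
# S58 / Adic : comparison of a `λ`-adic representation with `E[λ^n]` (exports)
-/

set_option autoImplicit false

namespace Fermat.Agent.S58

open Polynomial
open scoped WeierstrassCurve.Affine

theorem adic_density : GR.H.FrobeniusDensity :=
  GR.H.frobeniusDensity_of_open Fermat.Agent.GR.G.exists_frobenius_pow_mem

/-- an integer which kills `E[λⁿ]` is divisible by `λⁿ`. -/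
theorem adic_dvd_of_kills (W : WeierstrassCurve ℤ) (hΔ : W.Δ ≠ 0) (lam : ℕ) [Fact lam.Prime]
    (n : ℕ) (c : ℤ) (h : ∀ x : Tor W (lam ^ n), c • x = 0) : ((lam ^ n : ℕ) : ℤ) ∣ c := by
  have hlam : lam.Prime := Fact.out
  obtain ⟨j, hj, hg⟩ := (Nat.dvd_prime_pow hlam).1 (Int.gcd_dvd_natAbs_right c ((lam ^ n : ℕ) : ℤ))
  have hkill : ∀ x : Tor W (lam ^ n), ((lam ^ j : ℕ) : ℤ) • (x : ((toQ W)⁄Qb).Point) = 0 := by
    intro x
    have h1 : c • (x : ((toQ W)⁄Qb).Point) = 0 := congrArg Subtype.val (h x)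
    have h2 : ((lam ^ n : ℕ) : ℤ) • (x : ((toQ W)⁄Qb).Point) = 0 :=
      (Submodule.mem_torsionBy_iff _ _).1 x.2
    have h3 : ∀ (P : ((toQ W)⁄Qb).Point) (a b u v : ℤ),
        (a * u + b * v) • P = u • (a • P) + v • (b • P) := by
      intro P a b u v
      module
    rw [← hg, Int.gcd_eq_gcd_ab, h3, h1, h2, zsmul_zero, zsmul_zero, add_zero]
  have hfin : Finite (Tor W (lam ^ j)) := adic_finite_tor W hΔ (pow_pos hlam.pos j)
  let f : Tor W (lam ^ n) → Tor W (lam ^ j) := fun x =>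
    ⟨(x : ((toQ W)⁄Qb).Point), (Submodule.mem_torsionBy_iff _ _).2 (hkill x)⟩
  have hf : Function.Injective f := by
    intro x y hxy
    exact Subtype.ext (congrArg (fun z : Tor W (lam ^ j) => (z : ((toQ W)⁄Qb).Point)) hxy)
  have hcard := Nat.card_le_card_of_injective f hf
  rw [adic_card_tor W hΔ (pow_pos hlam.pos n), adic_card_tor W hΔ (pow_pos hlam.pos j)] at hcard
  have hle : lam ^ n ≤ lam ^ j := by
    by_contra hlt
    exact absurd hcard (not_le.mpr (Nat.pow_lt_pow_left (not_le.mp hlt) (by norm_num)))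
  have hnj : n ≤ j := (Nat.pow_le_pow_iff_right hlam.one_lt).1 hle
  have hjn : j = n := le_antisymm hj hnj
  rw [hjn] at hg
  rw [← hg]
  exact Int.gcd_dvd_left c _

theorem adic_eq_of_forall_mem {O : Type} [CommRing O] [IsDomain O] [IsDiscreteValuationRing O]
    {x y : O} (h : ∀ n : ℕ, x - y ∈ IsLocalRing.maximalIdeal O ^ n) : x = y := by
  have h1 : x - y ∈ (⨅ n : ℕ, IsLocalRing.maximalIdeal O ^ n : Ideal O) :=
    (Ideal.mem_iInf).2 h
  rw [Ideal.iInf_pow_eq_bot_of_isLocalRing _ (IsLocalRing.maximalIdeal.isMaximal O).ne_top] at h1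
  exact sub_eq_zero.1 h1

theorem adic_exists_root (m : ℕ) (hm : 0 < m) : ∃ ζ : Qb, IsPrimitiveRoot ζ m := by
  have : NeZero (m : Qb) := ⟨by exact_mod_cast hm.ne'⟩
  have : NeZero m := ⟨hm.ne'⟩
  exact HasEnoughRootsOfUnity.exists_primitiveRoot Qb m

theorem adic_modEq_of_pow_eq {m : ℕ} (hm : 0 < m) {ζ : Qb} (hζ : IsPrimitiveRoot ζ m) {a b : ℕ}
    (h : ζ ^ a = ζ ^ b) : a ≡ b [MOD m] := by
  have := (hζ.isOfFinOrder hm.ne').pow_eq_pow_iff_modEq.mp h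
  rwa [← hζ.eq_orderOf] at this

variable (W : WeierstrassCurve ℤ) (hΔ : W.Δ ≠ 0) (lam : ℕ) [Fact lam.Prime]
  {O : Type} [CommRing O] [IsDomain O] [IsDiscreteValuationRing O] [CharZero O]
  (hlam : (lam : O) ∈ IsLocalRing.maximalIdeal O) (ρ : GaloisRepAdic O) (S0 : Finset ℕ)
  (hρ : Compat W ρ S0)

include hlam in
theorem adic_intCast_mem {n : ℕ} {c : ℤ} (h : ((lam ^ n : ℕ) : ℤ) ∣ c) :
    (c : O) ∈ IsLocalRing.maximalIdeal O ^ n := by
  obtain ⟨e, rfl⟩ := h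
  push_cast
  exact Ideal.mul_mem_right _ _ (Ideal.pow_mem_pow hlam n)

include hΔ hlam hρ in
/-- (AD1) the trace of a Frobenius element at ANY good prime `ℓ₀ ≠ λ` is `a_{ℓ₀}(W)`. -/
theorem adic_frobenius (hEA : FrobAll) {ℓ₀ : ℕ} (hℓ₀ : ℓ₀.Prime) (hgood : ¬ (ℓ₀ : ℤ) ∣ W.Δ)
    (hne : ℓ₀ ≠ lam) {A : ValuationSubring Qb} (hA : A.LiesOverPrime ℓ₀) {σ : GQ}
    (hσ : A.IsFrobeniusAt σ ℓ₀) {α β : O}
    (hc : LinearMap.charpoly (ρ.ρ σ) = X ^ 2 - C α * X + C β) :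
    α = ((W.apOfModel ℓ₀ : ℤ) : O) := by
  have hlamP : lam.Prime := Fact.out
  obtain ⟨htr, -⟩ := S31.trace_det_of_charpoly ρ.finrank_eq (ρ.ρ σ) _ _ hc
  apply adic_eq_of_forall_mem
  intro n
  have hpk : 0 < lam ^ n := pow_pos hlamP.pos n
  have hℓpk : ¬ ℓ₀ ∣ lam ^ n := fun h =>
    hne ((Nat.prime_dvd_prime_iff_eq hℓ₀ hlamP).mp (hℓ₀.dvd_of_dvd_pow h))
  obtain ⟨ζ, hζ⟩ := adic_exists_root (lam ^ n) hpk
  obtain ⟨t, d, hrel, ht, -, hζd⟩ := adic_key W hΔ lam ρ S0 hρ adic_density σ n ζ hζ.pow_eq_one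
  -- `d ≡ ℓ₀`
  have hd : d ≡ ℓ₀ [MOD lam ^ n] := by
    apply adic_modEq_of_pow_eq hpk hζ
    rw [← hζd, GR.H.frobenius_rootOfUnity A ℓ₀ hℓ₀ hA σ hσ (lam ^ n) hℓpk ζ hζ.pow_eq_one]
  have hd' : ((lam ^ n : ℕ) : ℤ) ∣ (ℓ₀ : ℤ) - (d : ℤ) := (Nat.modEq_iff_dvd).1 hd
  -- `t ≡ a`
  have hkill : ∀ y : Tor W (lam ^ n), (t - W.apOfModel ℓ₀) • y = 0 := by
    intro y
    obtain ⟨x, hy⟩ : ∃ x : Tor W (lam ^ n), σ • x = y := ⟨σ⁻¹ • y, smul_inv_smul _ _⟩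
    have h1 := hrel x
    have h2 := hEA W hℓ₀ hgood hℓpk hA hσ x
    have h3 : ((ℓ₀ : ℤ) - (d : ℤ)) • x = 0 := by
      obtain ⟨e, he⟩ := hd'
      rw [he, mul_comm, mul_smul]
      have : ((lam ^ n : ℕ) : ℤ) • x = 0 := Submodule.smul_torsionBy _ x
      rw [this, smul_zero]
    rw [hy] at h1 h2
    have h4 : ∀ z : Tor W (lam ^ n), (t - W.apOfModel ℓ₀) • y =
        ((z - W.apOfModel ℓ₀ • y + (ℓ₀ : ℤ) • x) - (z - t • y + (d : ℤ) • x) -
          ((ℓ₀ : ℤ) - (d : ℤ)) • x) := by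
      intro z
      module
    rw [h4 (σ • y), h1, h2, h3]
    simp
  have hta := adic_dvd_of_kills W hΔ lam n _ hkill
  have h5 : ((t - W.apOfModel ℓ₀ : ℤ) : O) ∈ IsLocalRing.maximalIdeal O ^ n :=
    adic_intCast_mem lam hlam hta
  rw [htr] at ht
  have e : α - ((W.apOfModel ℓ₀ : ℤ) : O) = (α - (t : O)) + ((t - W.apOfModel ℓ₀ : ℤ) : O) := by
    push_cast
    ring
  rw [e]
  exact Ideal.add_mem _ ht h5

include hΔ hlam hρ in
/-- (AD2) an element of an inertia group at `q ≠ λ` which fixes points of exact order `λ^n` for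
all `n` is unipotent. -/
theorem adic_unipotent {q : ℕ} (hq : q.Prime) (hne : q ≠ lam) {A : ValuationSubring Qb}
    (hA : A.LiesOverPrime q) {σ : GQ} (hσ : σ ∈ A.inertiaSubgroupIn ℚ)
    (hfix : ∀ n : ℕ, ∃ x : Tor W (lam ^ n), addOrderOf x = lam ^ n ∧ σ • x = x) :
    LinearMap.charpoly (ρ.ρ σ) = (X - 1) ^ 2 := by
  have hlamP : lam.Prime := Fact.out
  have key : ∀ n : ℕ, LinearMap.trace O ρ.V (ρ.ρ σ) - 2 ∈ IsLocalRing.maximalIdeal O ^ n ∧
      LinearMap.det (ρ.ρ σ) - 1 ∈ IsLocalRing.maximalIdeal O ^ n := by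
    intro n
    have hpk : 0 < lam ^ n := pow_pos hlamP.pos n
    have hqpk : ¬ q ∣ lam ^ n := fun h =>
      hne ((Nat.prime_dvd_prime_iff_eq hq hlamP).mp (hq.dvd_of_dvd_pow h))
    obtain ⟨ζ, hζ⟩ := adic_exists_root (lam ^ n) hpk
    obtain ⟨t, d, hrel, ht, hdt, hζd⟩ :=
      adic_key W hΔ lam ρ S0 hρ adic_density σ n ζ hζ.pow_eq_one
    -- `σ ζ = ζ`
    have hζA : ζ ∈ A := Fermat.Agent.Lib.Frobenius.isIntegral_mem A
      (IsIntegral.of_pow hpk (by rw [hζ.pow_eq_one]; exact isIntegral_one))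
    have hσζ : σ ζ = ζ :=
      GR.H.Cyc_eq_of_sub_mem A q hq hA (lam ^ n) hqpk _ _
        (by rw [← map_pow, hζ.pow_eq_one, map_one]) hζ.pow_eq_one (S05.inertia_sub_mem A hσ hζA)
    have hd : d ≡ 1 [MOD lam ^ n] := by
      apply adic_modEq_of_pow_eq hpk hζ
      rw [← hζd, hσζ, pow_one]
    have hd' : ((lam ^ n : ℕ) : ℤ) ∣ ((1 : ℕ) : ℤ) - (d : ℤ) := (Nat.modEq_iff_dvd).1 hd
    obtain ⟨x, hx, hσx⟩ := hfix n
    have h1 := hrel x
    rw [hσx, hσx] at h1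
    have h2 : (1 - t + (d : ℤ)) • x = 0 := by
      rw [← h1]
      module
    have h3 : ((lam ^ n : ℕ) : ℤ) ∣ 1 - t + (d : ℤ) := by
      rw [← hx]
      exact (addOrderOf_dvd_iff_zsmul_eq_zero).2 h2
    have h4 : ((lam ^ n : ℕ) : ℤ) ∣ t - 2 := by
      have : t - 2 = -(1 - t + (d : ℤ)) - (((1 : ℕ) : ℤ) - (d : ℤ)) := by push_cast; ring
      rw [this]
      exact dvd_sub (Dvd.dvd.neg_right h3) hd'
    constructor
    · have e : LinearMap.trace O ρ.V (ρ.ρ σ) - 2 =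
          (LinearMap.trace O ρ.V (ρ.ρ σ) - (t : O)) + ((t - 2 : ℤ) : O) := by
        push_cast
        ring
      rw [e]
      exact Ideal.add_mem _ ht (adic_intCast_mem lam hlam h4)
    · have e : LinearMap.det (ρ.ρ σ) - 1 =
          (LinearMap.det (ρ.ρ σ) - (d : O)) - ((((1 : ℕ) : ℤ) - (d : ℤ) : ℤ) : O) := by
        push_cast
        ring
      rw [e]
      exact Ideal.sub_mem _ hdt (adic_intCast_mem lam hlam hd')
  have htr : LinearMap.trace O ρ.V (ρ.ρ σ) = 2 := adic_eq_of_forall_mem fun n => (key n).1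
  have hdet : LinearMap.det (ρ.ρ σ) = 1 := adic_eq_of_forall_mem fun n => (key n).2
  let e := Module.finBasisOfFinrankEq O ρ.V ρ.finrank_eq
  rw [← LinearMap.det_toMatrix e (ρ.ρ σ)] at hdet
  rw [LinearMap.trace_eq_matrix_trace O e] at htr
  rw [← LinearMap.charpoly_toMatrix (ρ.ρ σ) e, Matrix.charpoly_fin_two, htr, hdet]
  simp only [map_ofNat, map_one]
  ring

end Fermat.Agent.S58
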