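import Fermat.Agent.S58.Iface
import Fermat.Agent.S31.MatA
import Fermat.Agent.S31.MatC
import Fermat.Agent.S31.CommId
import Fermat.Agent.GR.H.Cyc
import Fermat.Agent.S05.Inertia
import Fermat.Agent.EL.Export

/-!
# S58 / AdicKey : Lemma A'' (a common "characteristic polynomial" for `ρ(σ)` modulo `𝔪ⁿ`, for the
action of `σ` on `E[λⁿ]` and on `μ_{λⁿ}`)
-/

set_option autoImplicit false

namespace Fermat.Agent.S58

open Polynomial WeierstrassCurve WeierstrassCurve.Affine WeierstrassCurve.Affine.Point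
open Fermat.Agent.S31 (powSum pow_relation trace_det_of_charpoly trace_pow_eq_powSum map_powSum
  trace_sub_mem det_sub_mem)

/-- `ρ` has the Frobenius characteristic polynomials of `W` outside the finite set `S0`. -/
def Compat (W : WeierstrassCurve ℤ) {O : Type} [CommRing O] [IsLocalRing O] (ρ : GaloisRepAdic O)
    (S0 : Finset ℕ) : Prop :=
  ∀ ℓ : ℕ, ℓ.Prime → ℓ ∉ S0 →
    ∀ A : ValuationSubring Qb, A.LiesOverPrime ℓ → ∀ σ : GQ, A.IsFrobeniusAt σ ℓ →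
      LinearMap.charpoly (ρ.ρ σ) = X ^ 2 - C ((W.apOfModel ℓ : ℤ) : O) * X + C (ℓ : O)

/-! ### the field of definition of the torsion points -/

/-- the coordinates of a point -/
def adicCoords {W : Affine Qb} : W.Point → Set Qb
  | .zero => ∅
  | .some x y _ => {x, y}

theorem adicCoords_finite {W : Affine Qb} (Q : W.Point) : (adicCoords Q).Finite := by
  cases Q with
  | zero => exact Set.finite_empty
  | some x y h => exact Set.toFinite {x, y}

theorem adic_smul_eq_self {W : Affine ℚ} (σ : GQ) (Q : (W⁄Qb).Point)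
    (h : ∀ x ∈ adicCoords Q, σ x = x) : σ • Q = Q := by
  cases Q with
  | zero => rfl
  | some x y hxy =>
    have hx : σ x = x := h x (Set.mem_insert _ _)
    have hy : σ y = y := h y (Set.mem_insert_of_mem _ rfl)
    rw [algEquiv_smul_def]
    simp only [Point.map_some, Point.some.injEq]
    exact ⟨hx, hy⟩

theorem adic_finite_tor (W : WeierstrassCurve ℤ) (hΔ : W.Δ ≠ 0) {m : ℕ} (hm : 0 < m) :
    Finite (Tor W m) := by
  apply Nat.finite_of_card_ne_zero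
  have h := EL.card_torsionBy W hΔ hm
  have h2 : Nat.card (Tor W m) = m ^ 2 := h
  rw [h2]
  positivity

theorem adic_card_tor (W : WeierstrassCurve ℤ) (hΔ : W.Δ ≠ 0) {m : ℕ} (hm : 0 < m) :
    Nat.card (Tor W m) = m ^ 2 :=
  EL.card_torsionBy W hΔ hm

/-- the torsion points are defined over a finite extension -/
theorem adic_level (W : WeierstrassCurve ℤ) (hΔ : W.Δ ≠ 0) {m : ℕ} (hm : 0 < m) :
    ∃ L : IntermediateField ℚ Qb, FiniteDimensional ℚ L ∧
      ∀ σ : GQ, (∀ x ∈ L, σ x = x) → ∀ P : Tor W m, σ • P = P := by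
  have hfin := adic_finite_tor W hΔ hm
  let S : Set Qb := ⋃ Q : Tor W m, adicCoords (Q : ((toQ W)⁄Qb).Point)
  have hS : S.Finite := Set.finite_iUnion fun Q => adicCoords_finite _
  have : Finite S := hS.to_subtype
  refine ⟨IntermediateField.adjoin ℚ S,
    IntermediateField.finiteDimensional_adjoin fun x _ =>
      ((AlgebraicClosure.isAlgebraic ℚ).isAlgebraic x).isIntegral, ?_⟩
  intro σ hσ Q
  apply Subtype.ext
  change σ • (Q : ((toQ W)⁄Qb).Point) = Q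
  refine adic_smul_eq_self σ _ fun x hx => hσ x ?_
  exact IntermediateField.subset_adjoin ℚ S (Set.mem_iUnion.mpr ⟨Q, hx⟩)

/-- the Galois action on `E[m]` as `ℤ`-linear endomorphisms -/
noncomputable def adicR (W : WeierstrassCurve ℤ) (m : ℕ) : GQ →* Module.End ℤ (Tor W m) :=
  DistribMulAction.toModuleEnd ℤ (Tor W m)

theorem adicR_apply (W : WeierstrassCurve ℤ) (m : ℕ) (σ : GQ) (x : Tor W m) :
    adicR W m σ x = σ • x := rfl

/-! ### Lemma A'' -/

variable (W : WeierstrassCurve ℤ) (hΔ : W.Δ ≠ 0) (lam : ℕ) [Fact lam.Prime]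
  {O : Type} [CommRing O] [IsLocalRing O] (ρ : GaloisRepAdic O) (S0 : Finset ℕ)
  (hρ : Compat W ρ S0)

include hΔ hρ in
theorem adic_key (hD : GR.H.FrobeniusDensity) (σ : GQ) (n : ℕ) (ζ : Qb)
    (hζ : ζ ^ (lam ^ n) = 1) :
    ∃ (t : ℤ) (d : ℕ),
      (∀ x : Tor W (lam ^ n), σ • σ • x - t • σ • x + (d : ℤ) • x = 0) ∧
      LinearMap.trace O ρ.V (ρ.ρ σ) - (t : O) ∈ IsLocalRing.maximalIdeal O ^ n ∧
      LinearMap.det (ρ.ρ σ) - (d : O) ∈ IsLocalRing.maximalIdeal O ^ n ∧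
      σ ζ = ζ ^ d := by
  have hlam : lam.Prime := Fact.out
  have hpk : 0 < lam ^ n := pow_pos hlam.pos n
  obtain ⟨L1, hL1fin, hL1⟩ := ρ.isAdicContinuous n
  obtain ⟨L2, hL2fin, hL2⟩ := adic_level W hΔ hpk
  have hζint : IsIntegral ℚ ζ := by
    refine ⟨Polynomial.X ^ (lam ^ n) - 1, Polynomial.monic_X_pow_sub_C 1 hpk.ne', ?_⟩
    simp [hζ]
  have hL3fin : FiniteDimensional ℚ (IntermediateField.adjoin ℚ {ζ}) :=
    IntermediateField.adjoin.finiteDimensional hζint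
  have hL12 : FiniteDimensional ℚ (L1 ⊔ L2 : IntermediateField ℚ Qb) :=
    IntermediateField.finiteDimensional_sup L1 L2
  have hLfin : FiniteDimensional ℚ
      ((L1 ⊔ L2) ⊔ IntermediateField.adjoin ℚ {ζ} : IntermediateField ℚ Qb) :=
    IntermediateField.finiteDimensional_sup _ _
  obtain ⟨ℓ, A, τ, hℓ, hℓS, hA, hτ, ⟨b, hag⟩, -⟩ :=
    hD ((L1 ⊔ L2) ⊔ IntermediateField.adjoin ℚ {ζ}) hLfin
      (S0 ∪ {2, 3, lam} ∪ W.Δ.natAbs.primeFactors) σ
  simp only [Finset.mem_union, Finset.mem_insert, Finset.mem_singleton, not_or] at hℓS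
  obtain ⟨⟨hℓS0, hℓ2, hℓ3, hℓlam⟩, hℓΔ⟩ := hℓS
  have h5 : 5 ≤ ℓ := by
    have h2 := hℓ.two_le
    by_contra hlt
    have h4 : ℓ = 4 := by omega
    rw [h4] at hℓ
    exact absurd hℓ (by norm_num)
  have hgood : ¬ (ℓ : ℤ) ∣ W.Δ := by
    intro hdvd
    apply hℓΔ
    rw [Nat.mem_primeFactors]
    exact ⟨hℓ, Int.natCast_dvd.mp hdvd, Int.natAbs_ne_zero.mpr hΔ⟩
  have hℓpk : ¬ ℓ ∣ lam ^ n := fun h =>
    hℓlam ((Nat.prime_dvd_prime_iff_eq hℓ hlam).mp (hℓ.dvd_of_dvd_pow h))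
  -- `u = σ⁻¹ τ^b` fixes the level
  have hu : ∀ x ∈ ((L1 ⊔ L2) ⊔ IntermediateField.adjoin ℚ {ζ} : IntermediateField ℚ Qb),
      (σ⁻¹ * τ ^ b) x = x := by
    intro x hx
    rw [AlgEquiv.mul_apply, hag x hx]
    exact AlgEquiv.symm_apply_apply σ x
  have hu1 : ∀ x ∈ L1, (σ⁻¹ * τ ^ b) x = x := fun x hx =>
    hu x ((le_sup_left.trans le_sup_left : L1 ≤ _) hx)
  have hu2 : ∀ x ∈ L2, (σ⁻¹ * τ ^ b) x = x := fun x hx =>
    hu x ((le_sup_right.trans le_sup_left : L2 ≤ _) hx)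
  have hgτ : τ ^ b = σ * (σ⁻¹ * τ ^ b) := by group
  have hr1 : adicR W (lam ^ n) (σ⁻¹ * τ ^ b) = 1 :=
    LinearMap.ext fun x => hL2 _ hu2 x
  have hrg : adicR W (lam ^ n) σ = adicR W (lam ^ n) τ ^ b := by
    rw [← map_pow, hgτ, map_mul, hr1, mul_one]
  obtain ⟨htr, hdet⟩ := trace_det_of_charpoly ρ.finrank_eq (ρ.ρ τ) _ _ (hρ ℓ hℓ hℓS0 A hA τ hτ)
  have hcong : ∀ v : ρ.V, ρ.ρ σ v - ρ.ρ (τ ^ b) v ∈
      IsLocalRing.maximalIdeal O ^ n • (⊤ : Submodule O ρ.V) := by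
    intro v
    rw [hgτ, map_mul, Module.End.mul_apply, ← map_sub, ← neg_sub, map_neg]
    refine Submodule.neg_mem _ ?_
    have h2 := hL1 _ hu1 v
    have h3 := Submodule.mem_map_of_mem (f := ρ.ρ σ) h2
    rw [Submodule.map_smul''] at h3
    exact Submodule.smul_mono le_rfl le_top h3
  refine ⟨powSum (W.apOfModel ℓ : ℤ) (ℓ : ℤ) b, ℓ ^ b, ?_, ?_, ?_, ?_⟩
  · intro x
    have hx : adicR W (lam ^ n) τ * adicR W (lam ^ n) τ - (W.apOfModel ℓ : ℤ) • adicR W (lam ^ n) τ +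
        (ℓ : ℤ) • (1 : Module.End ℤ (Tor W (lam ^ n))) = 0 := by
      refine LinearMap.ext fun x => ?_
      exact EL.frobenius_smul_eq W hℓ h5 hgood hℓpk hA hτ x
    have := LinearMap.congr_fun (pow_relation (adicR W (lam ^ n) τ) _ _ hx b) x
    rw [← hrg] at this
    push_cast
    exact this
  · have h1 : ((powSum (W.apOfModel ℓ : ℤ) (ℓ : ℤ) b : ℤ) : O) =
        LinearMap.trace O ρ.V (ρ.ρ (τ ^ b)) := by
      rw [map_pow, trace_pow_eq_powSum ρ.finrank_eq, htr, hdet]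
      have h2 := map_powSum (Int.castRingHom O) (W.apOfModel ℓ : ℤ) (ℓ : ℤ) b
      simpa using h2
    rw [h1]
    exact trace_sub_mem _ _ _ hcong
  · have h1 : ((ℓ ^ b : ℕ) : O) = LinearMap.det (ρ.ρ (τ ^ b)) := by
      rw [map_pow, map_pow, hdet]
      push_cast
      rfl
    rw [h1]
    exact det_sub_mem _ _ _ hcong
  · have hζL : ζ ∈ ((L1 ⊔ L2) ⊔ IntermediateField.adjoin ℚ {ζ} : IntermediateField ℚ Qb) :=
      (le_sup_right : IntermediateField.adjoin ℚ {ζ} ≤ _)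
        (IntermediateField.mem_adjoin_simple_self ℚ ζ)
    rw [← hag ζ hζL]
    have hτζ : τ ζ = ζ ^ ℓ := GR.H.frobenius_rootOfUnity A ℓ hℓ hA τ hτ (lam ^ n) hℓpk ζ hζ
    clear hag hu hu1 hu2 hgτ hrg hr1 hcong
    induction b with
    | zero => simp
    | succ b ih =>
      rw [pow_succ', AlgEquiv.mul_apply, ih, map_pow, hτζ, ← pow_mul, pow_succ']

end Fermat.Agent.S58
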