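import Fermat.Prelude.Def_WeierstrassCurve_ConductorLevel
import Fermat.Prelude.Def_FLTPrelim_ModularRep
import Fermat.Prelude.Def_CuspForm_HeckeGaloisRepDatum
import Fermat.Prelude.Def_CuspForm_Newforms
import Fermat.Prelude.Def_GaloisRep_LocalConditions

/-!
# S58 / Iface : the interfaces between the modules of S58

* `S35P`, `S36P` : the two black boxes (S35 verbatim; S36 in the form of `GT.W.S36_of`, i.e. without
  the hypotheses `hres`, `hlam2`).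
* `Rep35`, `Rep36` : the same, with the coefficient bookkeeping (`chig`, `iota`, `O'`) hidden.
* `FrobAll`, `InertiaFix` : the two exports of the elliptic curve side (module EL2).
-/

set_option autoImplicit false

namespace Fermat.Agent.S58

open Polynomial
open scoped WeierstrassCurve.Affine

abbrev Qb := AlgebraicClosure ℚ
abbrev GQ := Qb ≃ₐ[ℚ] Qb

/-- the generic fibre -/
abbrev toQ (W : WeierstrassCurve ℤ) : WeierstrassCurve ℚ := W.map (Int.castRingHom ℚ)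

/-- `E[n](ℚbar)` -/
abbrev Tor (W : WeierstrassCurve ℤ) (n : ℕ) : Type :=
  Submodule.torsionBy ℤ ((toQ W)⁄Qb).Point (n : ℤ)

/-- S35, verbatim. -/
def S35P : Prop :=
  ∀ {M : ℕ} [NeZero M] {g : CuspForm (CongruenceSubgroup.Gamma0 M) 2} (_ : g.IsNewform)
    (lam : ℕ) [Fact lam.Prime]
    (S : Finset ℕ)
    (O' : Type) [CommRing O'] [IsDomain O'] [IsDiscreteValuationRing O']
    [IsAdicComplete (IsLocalRing.maximalIdeal O') O'] [Finite (IsLocalRing.ResidueField O')]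
    [CharZero O'] (_ : (lam : O') ∈ IsLocalRing.maximalIdeal O')
    (chig : CuspForm.heckeAlgebra M 2 (↑S : Set ℕ) →+* ℂ)
    (_ : ∀ (ℓ : ℕ) (hℓ : ℓ.Prime) (hℓM : ¬ ℓ ∣ M) (hℓS : ℓ ∉ (↑S : Set ℕ)),
      chig (CuspForm.heckeAlgebra.T hℓ hℓM hℓS) = ModularFormClass.qCoeff g ℓ)
    (iota : chig.range →+* O')
    (_ : lam ∈ S) (_ : ∀ q : ℕ, q.Prime → q ∣ M → q ∈ S),
    ∃ (O'' : Type) (_ : CommRing O'') (_ : IsDomain O'') (_ : IsDiscreteValuationRing O'')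
      (_ : IsAdicComplete (IsLocalRing.maximalIdeal O'') O'') (_ : Finite (IsLocalRing.ResidueField O''))
      (_ : CharZero O'') (_ : Algebra O' O'') (_ : Module.Finite O' O'') (_ : IsLocalHom (algebraMap O' O'')),
      Function.Injective (algebraMap O' O'') ∧
      ∃ ρ : GaloisRepAdic O'',
        (∀ (ℓ : ℕ) (hℓ : ℓ.Prime) (hℓM : ¬ ℓ ∣ M) (hℓS : ℓ ∉ (↑S : Set ℕ)),
          ∀ A : ValuationSubring (AlgebraicClosure ℚ), A.LiesOverPrime ℓ →
            ∀ σ : AlgebraicClosure ℚ ≃ₐ[ℚ] AlgebraicClosure ℚ, A.IsFrobeniusAt σ ℓ →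
              LinearMap.charpoly (ρ.ρ σ) =
                X ^ 2 - C (algebraMap O' O'' ((iota.comp chig.rangeRestrict) (CuspForm.heckeAlgebra.T hℓ hℓM hℓS))) * X
                  + C ((ℓ : O''))) ∧
        (∀ q : ℕ, q.Prime → q ≠ lam → q ∣ M → ¬ q ^ 2 ∣ M →
          ∀ A : ValuationSubring (AlgebraicClosure ℚ), A.LiesOverPrime q →
            ∀ σ : AlgebraicClosure ℚ ≃ₐ[ℚ] AlgebraicClosure ℚ, A.IsFrobeniusAt σ q →
              LinearMap.charpoly (ρ.ρ σ) = X ^ 2 - C ((q : O'') + 1) * X + C ((q : O'')) ∨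
              LinearMap.charpoly (ρ.ρ σ) = X ^ 2 + C ((q : O'') + 1) * X + C ((q : O'')))

/-- S36 in the form of `GT.W.S36_of` (no `hres`, no `lam ≠ 2`). -/
def S36P : Prop :=
  ∀ {M : ℕ} [NeZero M] {g : CuspForm (CongruenceSubgroup.Gamma0 M) 2} (_ : g.IsNewform)
    (lam : ℕ) [Fact lam.Prime]
    (S : Finset ℕ)
    (O' : Type) [CommRing O'] [IsDomain O'] [IsDiscreteValuationRing O']
    [IsAdicComplete (IsLocalRing.maximalIdeal O') O'] [Finite (IsLocalRing.ResidueField O')]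
    [CharZero O'] (_ : (lam : O') ∈ IsLocalRing.maximalIdeal O')
    (chig : CuspForm.heckeAlgebra M 2 (↑S : Set ℕ) →+* ℂ)
    (_ : ∀ (ℓ : ℕ) (hℓ : ℓ.Prime) (hℓM : ¬ ℓ ∣ M) (hℓS : ℓ ∉ (↑S : Set ℕ)),
      chig (CuspForm.heckeAlgebra.T hℓ hℓM hℓS) = ModularFormClass.qCoeff g ℓ)
    (iota : chig.range →+* O')
    (_ : lam ∈ S) (_ : ∀ q : ℕ, q.Prime → q ∣ M → q ∈ S),
    ∃ (O'' : Type) (_ : CommRing O'') (_ : IsDomain O'') (_ : IsDiscreteValuationRing O'')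
      (_ : IsAdicComplete (IsLocalRing.maximalIdeal O'') O'') (_ : Finite (IsLocalRing.ResidueField O''))
      (_ : CharZero O'') (_ : Algebra O' O'') (_ : Module.Finite O' O'') (_ : IsLocalHom (algebraMap O' O'')),
      Function.Injective (algebraMap O' O'') ∧
      ∃ ρ : GaloisRepAdic O'',
        (∀ (ℓ : ℕ) (hℓ : ℓ.Prime) (hℓM : ¬ ℓ ∣ M) (hℓS : ℓ ∉ (↑S : Set ℕ)),
          ∀ A : ValuationSubring (AlgebraicClosure ℚ), A.LiesOverPrime ℓ →
            ∀ σ : AlgebraicClosure ℚ ≃ₐ[ℚ] AlgebraicClosure ℚ, A.IsFrobeniusAt σ ℓ →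
              LinearMap.charpoly (ρ.ρ σ) =
                X ^ 2 - C (algebraMap O' O'' ((iota.comp chig.rangeRestrict) (CuspForm.heckeAlgebra.T hℓ hℓM hℓS))) * X
                  + C ((ℓ : O''))) ∧
        (∀ q : ℕ, q.Prime → q ≠ lam → M.factorization q = 2 → ¬ ρ.IsUnipotentOnInertiaAt q)

/-- the Frobenius clause, with the coefficient ring hidden: the trace `α` of a Frobenius element at
`ℓ ∤ M`, `ℓ ∉ S` is an integer `a` iff `a_ℓ(g) = a`. -/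
def FrobClause {M : ℕ} (g : CuspForm (CongruenceSubgroup.Gamma0 M) 2) (S : Finset ℕ)
    {O : Type} [CommRing O] [IsLocalRing O] (ρ : GaloisRepAdic O) : Prop :=
  ∀ ℓ : ℕ, ℓ.Prime → ¬ ℓ ∣ M → ℓ ∉ S →
    ∀ A : ValuationSubring Qb, A.LiesOverPrime ℓ → ∀ σ : GQ, A.IsFrobeniusAt σ ℓ →
      ∃ α : O, LinearMap.charpoly (ρ.ρ σ) = X ^ 2 - C α * X + C (ℓ : O) ∧
        ∀ a : ℤ, α = (a : O) ↔ ModularFormClass.qCoeff g ℓ = (a : ℂ)

/-- output of S35 -/
def Rep35 {M : ℕ} (g : CuspForm (CongruenceSubgroup.Gamma0 M) 2) (lam : ℕ) (S : Finset ℕ) : Prop :=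
  ∃ (O : Type) (_ : CommRing O) (_ : IsDomain O) (_ : IsDiscreteValuationRing O) (_ : CharZero O),
    (lam : O) ∈ IsLocalRing.maximalIdeal O ∧
    ∃ ρ : GaloisRepAdic O, FrobClause g S ρ ∧
      ∀ q : ℕ, q.Prime → q ≠ lam → q ∣ M → ¬ q ^ 2 ∣ M →
        ∀ A : ValuationSubring Qb, A.LiesOverPrime q → ∀ σ : GQ, A.IsFrobeniusAt σ q →
          LinearMap.charpoly (ρ.ρ σ) = X ^ 2 - C ((q : O) + 1) * X + C (q : O) ∨
          LinearMap.charpoly (ρ.ρ σ) = X ^ 2 + C ((q : O) + 1) * X + C (q : O)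

/-- output of S36 -/
def Rep36 {M : ℕ} (g : CuspForm (CongruenceSubgroup.Gamma0 M) 2) (lam : ℕ) (S : Finset ℕ) : Prop :=
  ∃ (O : Type) (_ : CommRing O) (_ : IsDomain O) (_ : IsDiscreteValuationRing O) (_ : CharZero O),
    (lam : O) ∈ IsLocalRing.maximalIdeal O ∧
    ∃ ρ : GaloisRepAdic O, FrobClause g S ρ ∧
      ∀ q : ℕ, q.Prime → q ≠ lam → M.factorization q = 2 → ¬ ρ.IsUnipotentOnInertiaAt q

/-- EXPORT (EA) of EL2: the Frobenius equation on `E[n]` at ALL primes of good reduction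
(`EL.frobenius_smul_eq` is the case `5 ≤ ℓ`). -/
def FrobAll : Prop :=
  ∀ (W : WeierstrassCurve ℤ) {ℓ : ℕ}, ℓ.Prime → ¬ (ℓ : ℤ) ∣ W.Δ → ∀ {n : ℕ}, ¬ ℓ ∣ n →
    ∀ {A : ValuationSubring Qb}, A.LiesOverPrime ℓ → ∀ {σ : GQ}, A.IsFrobeniusAt σ ℓ →
      ∀ x : Tor W n, σ • σ • x - W.apOfModel ℓ • σ • x + (ℓ : ℤ) • x = 0

/-- the auxiliary prime used at `q` -/
def auxPrime (q : ℕ) : ℕ := if q = 2 then 3 else 2

/-- EXPORT (EB) of EL2: at a prime `q` of good or multiplicative reduction every element of the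
inertia group fixes a point of exact order `λ ^ n`, `λ = auxPrime q`. -/
def InertiaFix : Prop :=
  ∀ (W : WeierstrassCurve ℤ), W.Δ ≠ 0 → ∀ {q : ℕ}, q.Prime → ¬ ((q : ℤ) ∣ W.Δ ∧ (q : ℤ) ∣ W.c₄) →
    ∀ {A : ValuationSubring Qb}, A.LiesOverPrime q → ∀ {σ : GQ}, σ ∈ A.inertiaSubgroupIn ℚ →
      ∀ n : ℕ, ∃ x : Tor W (auxPrime q ^ n), addOrderOf x = auxPrime q ^ n ∧ σ • x = x

end Fermat.Agent.S58
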